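/-
S33, NodeNew, block N2 (chief helper165): the arithmetic leaves of the descent of `NodalEQ` to a number
field `K₀ ⊆ ℚ̄`, `A₀ = A ∩ K₀ = rA A K₀`.  Light imports on purpose.
-/
import Fermat.Agent.S33.New.Br.Zeta
import Fermat.Agent.S33.New.Br.Gal
import Fermat.Agent.S18.Descent.DVRUnif
import Fermat.Agent.BAD.LevelQ.Abs.Two

set_option autoImplicit false

noncomputable section

namespace Fermat.Agent.S33.New.EQ

open Fermat.Agent.S24 Fermat.Agent.GAL Fermat.Agent.GAL.E Fermat.Agent.S18 Fermat.Agent.S33.Old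
  Fermat.Agent.BAD.LevelQ

/-- The residue field of a valuation subring of a number field in which some nonzero integer is not
invertible is finite. -/
theorem EQA1_finite_residueField {K : Type*} [Field K] [NumberField K] (V : ValuationSubring K)
    {p : ℕ} (hp0 : p ≠ 0) (hpV : (p : K) ∈ V.nonunits) :
    Finite (IsLocalRing.ResidueField V) := by
  classical
  have hB : ∀ b : NumberField.RingOfIntegers K, algebraMap _ K b ∈ V := by
    intro b
    have hb : IsIntegral ℤ (algebraMap (NumberField.RingOfIntegers K) K b) :=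
      NumberField.RingOfIntegers.isIntegral_coe b
    have hb' : IsIntegral V (algebraMap (NumberField.RingOfIntegers K) K b) := hb.tower_top
    obtain ⟨y, hy⟩ := IsIntegrallyClosed.isIntegral_iff.mp hb'
    exact hy ▸ y.2
  have hV : V ≠ ⊤ := by
    intro htop
    rw [htop, ValuationSubring.mem_nonunits_iff_exists_mem_maximalIdeal] at hpV
    obtain ⟨hx, hm⟩ := hpV
    rw [IsLocalRing.mem_maximalIdeal, mem_nonunits_iff] at hm
    apply hm
    have h0 : ((p : K)) ≠ 0 := Nat.cast_ne_zero.mpr hp0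
    refine isUnit_iff_exists_inv.mpr ⟨⟨(p : K)⁻¹, ValuationSubring.mem_top _⟩, ?_⟩
    apply Subtype.ext
    exact mul_inv_cancel₀ h0
  obtain ⟨w, hw⟩ := Descent.exists_heightOneSpectrum_eq'
    (B := NumberField.RingOfIntegers K) V hB hV
  let φ : NumberField.RingOfIntegers K →+* V :=
    (algebraMap (NumberField.RingOfIntegers K) K).codRestrict V.toSubring hB
  let ψ : NumberField.RingOfIntegers K →+* IsLocalRing.ResidueField V :=
    (IsLocalRing.residue V).comp φ
  -- elements of `w` die in the residue field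
  have hker : ∀ b ∈ w.asIdeal, ψ b = 0 := by
    intro b hb
    show IsLocalRing.residue V (φ b) = 0
    rw [IsLocalRing.residue_eq_zero_iff, IsLocalRing.mem_maximalIdeal, mem_nonunits_iff]
    intro hu
    obtain ⟨c, hc⟩ := isUnit_iff_exists_inv.mp hu
    have hc' : algebraMap (NumberField.RingOfIntegers K) K b * (c : K) = 1 :=
      congrArg Subtype.val hc
    have h1 : w.valuation K (algebraMap (NumberField.RingOfIntegers K) K b) < 1 :=
      (w.valuation_lt_one_iff_mem b).2 hb
    have h2 : w.valuation K (c : K) ≤ 1 := by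
      have : (c : K) ∈ (w.valuation K).valuationSubring := hw ▸ c.2
      exact (Valuation.mem_valuationSubring_iff _ _).1 this
    have h3 := congrArg (w.valuation K) hc'
    rw [map_mul, map_one] at h3
    have h4 : w.valuation K (algebraMap (NumberField.RingOfIntegers K) K b) *
        w.valuation K (c : K) < 1 := by
      calc _ ≤ w.valuation K (algebraMap (NumberField.RingOfIntegers K) K b) * 1 :=
            mul_le_mul' le_rfl h2
        _ = _ := mul_one _
        _ < 1 := h1
    exact absurd h3 h4.ne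
  have hsurj : Function.Surjective ψ := by
    intro y
    obtain ⟨x, rfl⟩ := IsLocalRing.residue_surjective y
    have hx : w.valuation K (x : K) ≤ 1 := by
      have : (x : K) ∈ (w.valuation K).valuationSubring := hw ▸ x.2
      exact (Valuation.mem_valuationSubring_iff _ _).1 this
    obtain ⟨n, d, hnd⟩ := w.exists_primeCompl_mul_eq_of_integer (x : K) hx
    have hd : (d : NumberField.RingOfIntegers K) ∉ w.asIdeal := d.2
    have : w.asIdeal.IsMaximal := w.isMaximal
    obtain ⟨c, hc⟩ := Ideal.Quotient.exists_inv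
      (I := w.asIdeal) (a := Ideal.Quotient.mk w.asIdeal (d : NumberField.RingOfIntegers K))
      (by rwa [Ne, Ideal.Quotient.eq_zero_iff_mem])
    obtain ⟨c, rfl⟩ := Ideal.Quotient.mk_surjective c
    have hc1 : (d : NumberField.RingOfIntegers K) * c - 1 ∈ w.asIdeal := by
      rw [← Ideal.Quotient.eq_zero_iff_mem, map_sub, map_mul, hc, map_one, sub_self]
    have hc2 : ψ d * ψ c = 1 := by
      have := hker _ hc1
      rwa [map_sub, map_mul, map_one, sub_eq_zero] at this
    have hx1 : x * φ d = φ n := Subtype.ext hnd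
    have hx2 : IsLocalRing.residue V x * ψ d = ψ n := by
      show IsLocalRing.residue V x * IsLocalRing.residue V (φ d) = IsLocalRing.residue V (φ n)
      rw [← map_mul, hx1]
    refine ⟨n * c, ?_⟩
    rw [map_mul, ← hx2, mul_assoc, hc2, mul_one]
  have hfin : Finite (NumberField.RingOfIntegers K ⧸ w.asIdeal) :=
    w.asIdeal.finiteQuotientOfFreeOfNeBot w.ne_bot
  exact Finite.of_surjective (Ideal.Quotient.lift w.asIdeal ψ hker)
    (Ideal.Quotient.lift_surjective_of_surjective _ _ hsurj)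

/-- EQ-A1.  The residue field of `A ∩ K₀` is finite.
Route 1: every `a ∈ A₀` is a root of a primitive polynomial `P ∈ ℤ[X]` of degree `≤ d = [K₀ : ℚ]`
(`minpoly ℚ a`, `IsLocalization.integerNormalization`, `Polynomial.primPart`); `P mod p ≠ 0` kills
the residue of `a`; there are finitely many polynomials of degree `≤ d` over `ZMod p`, each with
finitely many roots.
Route 2: `S18.Descent.exists_heightOneSpectrum_eq'` (see the proof of
`S18.Descent.isDiscreteValuationRing_of_numberField`): `A₀` is the valuation ring of a maximal ideal `w`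
of `𝓞 K₀`, its residue field is `𝓞 K₀ ⧸ w`, finite. -/
theorem finite_residueField_rA {p : ℕ} (hp : p.Prime) (A : ValuationSubring Kbar)
    (hA : A.LiesOverPrime p) (K₀ : IntermediateField ℚ Kbar) [FiniteDimensional ℚ K₀] :
    Finite (IsLocalRing.ResidueField (rA A K₀)) := by
  have : NumberField K₀ :=
    { to_charZero := inferInstance
      to_finiteDimensional := by
        convert ‹FiniteDimensional ℚ K₀› }
  exact EQA1_finite_residueField (rA A K₀) hp.ne_zero (Descent.restrict_liesOverPrime K₀ hA)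

/-- EQ-A2.  A ring automorphism of a number field has finite order (it is a `ℚ`-algebra
automorphism, and `K₀ ≃ₐ[ℚ] K₀` is finite). -/
theorem exists_iterate_eq (K₀ : IntermediateField ℚ Kbar) [FiniteDimensional ℚ K₀]
    (τ : K₀ ≃+* K₀) : ∃ n : ℕ, 0 < n ∧ ∀ a : K₀, τ^[n] a = a := by
  let inst : Algebra ℚ K₀ := IntermediateField.algebra' K₀
  let σ : K₀ ≃ₐ[ℚ] K₀ := AlgEquiv.ofRingEquiv (f := τ) (fun r => by
    rw [eq_ratCast, map_ratCast])
  have : Finite (K₀ ≃ₐ[ℚ] K₀) :=
    @Finite.of_fintype _ (@AlgEquiv.fintype ℚ K₀ _ _ _ ‹FiniteDimensional ℚ K₀›)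
  refine ⟨orderOf σ, orderOf_pos σ, fun a => ?_⟩
  have h2 : ∀ (n : ℕ) (a : K₀), τ^[n] a = (σ ^ n) a := by
    intro n
    induction n with
    | zero => intro a; rfl
    | succ n ih =>
      intro a
      rw [Function.iterate_succ_apply', ih, pow_succ']
      rfl
  rw [h2, pow_orderOf_eq_one]
  rfl

/-- auxiliary for EQ-A3: `v (ζ - 1) ^ (p - 1) ≤ v p`. -/
private theorem arith_val_root_sub_one_le {F : Type*} [Field F] {Γ : Type*}
    [LinearOrderedCommGroupWithZero Γ] (v : Valuation F Γ) {p : ℕ} (hp : p.Prime) (ζ : F)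
    (hζ : ζ ^ p = 1) : v (ζ - 1) ^ (p - 1) ≤ v (p : F) := by
  have hp1 : p - 1 ≠ 0 := by have := hp.two_le; omega
  by_cases h1 : ζ = 1
  · rw [h1, sub_self, map_zero, zero_pow hp1]
    exact zero_le
  · have hvζ : v ζ = 1 := by
      have h2 : v ζ ^ p = 1 := by rw [← map_pow, hζ, map_one]
      exact (pow_eq_one_iff.mp h2).resolve_right hp.ne_zero
    have hl0 : ζ - 1 ≠ 0 := sub_ne_zero.mpr h1
    have hl1 : v (ζ - 1) ≤ 1 := by
      refine (v.map_sub ζ 1).trans ?_
      rw [hvζ, map_one, max_self]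
    obtain ⟨r, hr⟩ := exists_add_pow_prime_eq hp (1 : v.integer) ⟨ζ - 1, hl1⟩
    have hr' : ((1 : F) + (ζ - 1)) ^ p = 1 ^ p + (ζ - 1) ^ p + (p : F) * 1 * (ζ - 1) * r.1 := by
      have h := congrArg v.integer.subtype hr
      simpa using h
    rw [add_sub_cancel, hζ, one_pow] at hr'
    have h3 : (ζ - 1) * (ζ - 1) ^ (p - 1) = (ζ - 1) * (-(p : F) * r.1) := by
      rw [← pow_succ', Nat.sub_add_cancel hp.one_le]
      linear_combination -hr'
    have h4 := mul_left_cancel₀ hl0 h3
    rw [← map_pow, h4, map_mul, Valuation.map_neg]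
    exact mul_le_of_le_one_right' r.2

/-- EQ-A3.  In the residue field (characteristic `p`) `(ζ - 1) ^ p = ζ ^ p - 1 = 0`.
(Or: `(ζ - 1) ^ p = ζ ^ p - 1 + p * (element of A)`, `sub_pow_char`-type identity /
`exists_add_pow_prime_eq`; a valuation ring is reduced modulo its maximal ideal.) -/
theorem zeta_sub_one_mem_nonunits {p : ℕ} (hp : p.Prime) (A : ValuationSubring Kbar)
    (hA : A.LiesOverPrime p) (ζ : Kbar) (hζ : ζ ^ p = 1) : ζ - 1 ∈ A.nonunits := by
  rw [ValuationSubring.mem_nonunits_iff]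
  have hA' : A.valuation (p : Kbar) < 1 := (ValuationSubring.mem_nonunits_iff _).1 hA
  have h1 := (arith_val_root_sub_one_le A.valuation hp ζ hζ).trans_lt hA'
  by_contra h
  exact absurd h1 (not_lt.2 (one_le_pow₀ (not_lt.1 h)))

/-- EQ-A4.  `p ^ 2 = (ζ - 1) ^ (p + 1) e` (`exists_sq_eq_zeta_sub_one_pow`), so
`p ^ 2 / (ζ - 1) ^ p = (ζ - 1) e` is a nonunit (`zeta_sub_one_mem_nonunits`,
`BrGal_mem_nonunits_rA`). -/
theorem valuation_sq_div_lt_one {p : ℕ} (hp : p.Prime) (hp2 : p ≠ 2) (A : ValuationSubring Kbar)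
    (hA : A.LiesOverPrime p) (K₀ : IntermediateField ℚ Kbar) (ζ : K₀) (hζ : IsPrimitiveRoot ζ p) :
    (rA A K₀).valuation ((p : K₀) ^ 2 / (ζ - 1) ^ p) < 1 := by
  rw [← ValuationSubring.mem_nonunits_iff, BrGal_mem_nonunits_rA]
  have hζ' : IsPrimitiveRoot (ζ : Kbar) p :=
    hζ.map_of_injective (f := algebraMap K₀ Kbar) (algebraMap K₀ Kbar).injective
  obtain ⟨e, he⟩ := exists_sq_eq_zeta_sub_one_pow A hp hp2 (ζ : Kbar) hζ'
  have hne : (ζ : Kbar) - 1 ≠ 0 := sub_ne_zero.mpr (hζ'.ne_one hp.one_lt)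
  have h1 : (((p : K₀) ^ 2 / (ζ - 1) ^ p : K₀) : Kbar) = ((ζ : Kbar) - 1) * (e : Kbar) := by
    push_cast
    rw [he, pow_succ, div_eq_iff (pow_ne_zero p hne)]
    ring
  rw [h1, ValuationSubring.mem_nonunits_iff, map_mul]
  have h2 : A.valuation ((ζ : Kbar) - 1) < 1 :=
    (ValuationSubring.mem_nonunits_iff _).1
      (zeta_sub_one_mem_nonunits hp A hA (ζ : Kbar) hζ'.pow_eq_one)
  have h3 : A.valuation (e : Kbar) ≤ 1 := (A.valuation_le_one_iff _).2 e.2
  exact (mul_le_of_le_one_right' h3).trans_lt h2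

/-- EQ-A5.  (`restrict_sub_mem_nonunits`, `Two.lt_one_iff_div_mem`.) -/
theorem restrict_sub_div_mem {K₀ : IntermediateField ℚ Kbar} {s : E.GQ} {τ : K₀ ≃+* K₀}
    (hτ : ∀ a : K₀, ((τ a : K₀) : Kbar) = s (a : Kbar)) (A : ValuationSubring Kbar)
    (hs : s ∈ A.inertiaSubgroupIn ℚ) {ϖ₀ : K₀} (h₀ : IsUnif (rA A K₀) ϖ₀) :
    ∀ a ∈ rA A K₀, (τ a - a) / ϖ₀ ^ 1 ∈ rA A K₀ := by
  intro a ha
  rw [pow_one]
  exact (Two.lt_one_iff_div_mem h₀ _).1
    ((ValuationSubring.mem_nonunits_iff _).1 (restrict_sub_mem_nonunits hτ A hs a ha))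

end Fermat.Agent.S33.New.EQ

end
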