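/-
S33, NodeNew, block N2 (chief helper165): descent of the depth conditions `u ≡ 1 mod p ^ 2` at `v_∞` and
`v_0` from `ℚ̄` to a number field.
-/
import Fermat.Agent.BAD.LevelQ.Mod.Gauss
import Fermat.Agent.S33.Old.BridgeGauss
import Fermat.Agent.S18.Gauss.Basic
import Fermat.Agent.S33.New.Br.AL
import Fermat.Agent.S33.New.Br.GaussInt

set_option autoImplicit false

noncomputable section

namespace Fermat.Agent.S33.New.EQ

open ModularCurve Fermat.Agent.S24 Fermat.Agent.GAL Fermat.Agent.GAL.E Fermat.Agent.C1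
  Fermat.Agent.S18 Fermat.Agent.S33.Old Fermat.Agent.BAD.LevelQ Fermat.Agent.BAD.LevelQ.Mod

/-- EQ-G1: fractions `P / Q`, `Q` of nonzero reduction, lie in the Gauss valuation ring. -/
theorem mem_Og_of_mem_gaussSubring {K : Type*} [Field K] [Algebra ℚ K] {A₀ : ValuationSubring K}
    [IsDiscreteValuationRing A₀] {ϖ₀ : K} (h₀ : IsUnif A₀ ϖ₀) (N : ℕ) (f : FK K N)
    (hf : f ∈ Vert.gaussSubring A₀ (FK K N)) : f ∈ Og A₀ N := by
  obtain ⟨P, Q, hP, hQ, hQ0, h⟩ := hf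
  have hG := isGauss_Og h₀ N
  have hQ' : (⟨_, hQ⟩ : FK K N) ≠ 0 := fun h' => Fermat.Agent.S18.Gauss.iota_ne_zero hQ0 (congrArg Subtype.val h')
  have h1 : f * ⟨_, hQ⟩ = ⟨_, hP⟩ := Subtype.ext h
  have h2 : f = ⟨_, hP⟩ * (⟨_, hQ⟩ : FK K N)⁻¹ := by rw [← h1, mul_inv_cancel_right₀ hQ']
  rw [h2]
  exact mul_mem (hG.mem P hP) (hG.inv_mem Q hQ hQ0)

/-- EQ-G2: the two vertical valuation rings. -/
theorem mem_VV_of_gauss {K : Type*} [Field K] [Algebra ℚ K] [Algebra K Kbar]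
    {A₀ : ValuationSubring K} [IsDiscreteValuationRing A₀] {ϖ₀ : K} (h₀ : IsUnif A₀ ϖ₀)
    {M p : ℕ} [NeZero M] [NeZero p] (hc : M.Coprime p) (y : FK K (M * p))
    (h1 : y ∈ Vert.gaussSubring A₀ (FK K (M * p)))
    (h2 : Mod.ww K hc y ∈ Vert.gaussSubring A₀ (FK K (M * p))) : ∀ c, y ∈ VV A₀ hc c := by
  intro c
  fin_cases c
  · exact mem_Og_of_mem_gaussSubring h₀ _ y h1
  · exact mem_Og_of_mem_gaussSubring h₀ _ _ h2

/-- EQ-G3: descent of the depth at `v_∞` and at `v_0`. -/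
theorem ev_deep {M p : ℕ} [NeZero M] [NeZero p] (hp : p.Prime) (hc : M.Coprime p) (D : ALData M p)
    (A : ValuationSubring Kbar) (hA : A.LiesOverPrime p) (u : FN (M * p))
    (c1 : CongD A ((p : Kbar) ^ 2) (u : LaurentSeries Kbar))
    (c2 : CongD A ((p : Kbar) ^ 2) ((D.w u : FN (M * p)) : LaurentSeries Kbar)) :
    Ev fun K₀ => ∀ u₀ : FK K₀ (M * p), tb (M * p) K₀ u₀ = u →
      (u₀ - 1) / algebraMap K₀ (FK K₀ (M * p)) ((p : K₀) ^ 2) ∈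
        Vert.gaussSubring (rA A K₀) (FK K₀ (M * p)) ∧
      Mod.ww K₀ hc ((u₀ - 1) / algebraMap K₀ (FK K₀ (M * p)) ((p : K₀) ^ 2)) ∈
        Vert.gaussSubring (rA A K₀) (FK K₀ (M * p)) := by
  have hd0 : ((p : Kbar) ^ 2) ≠ 0 := pow_ne_zero _ (Nat.cast_ne_zero.2 hp.ne_zero)
  obtain ⟨y₁, hy₁, e₁⟩ := exists_gaussInt_of_congD hp hA hd0 u c1
  obtain ⟨y₂, hy₂, e₂⟩ := exists_gaussInt_of_congD hp hA hd0 (D.w u) c2
  refine ((ev_gaussInt A y₁ hy₁).and (ev_gaussInt A y₂ hy₂)).mono fun K₀ ⟨h1, h2⟩ u₀ hu => ?_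
  have hcst : tb (M * p) K₀ (algebraMap K₀ (FK K₀ (M * p)) ((p : K₀) ^ 2)) =
      algebraMap Kbar (FN (M * p)) ((p : Kbar) ^ 2) := by
    rw [S18.Descent.toBar_algebraMap]
    congr 1
  have hcst0 : algebraMap Kbar (FN (M * p)) ((p : Kbar) ^ 2) ≠ 0 := (map_ne_zero _).2 hd0
  have t1 : tb (M * p) K₀ ((u₀ - 1) / algebraMap K₀ (FK K₀ (M * p)) ((p : K₀) ^ 2)) = y₁ := by
    rw [map_div₀, map_sub, map_one, hu, hcst, e₁, add_sub_cancel_left,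
      mul_div_cancel_left₀ _ hcst0]
  refine ⟨h1 _ t1, h2 _ ?_⟩
  rw [tb_ww hp D hc, t1]
  have h3 : D.w u = 1 + algebraMap Kbar (FN (M * p)) ((p : Kbar) ^ 2) * D.w y₁ := by
    conv_lhs => rw [e₁]
    rw [map_add, map_one, map_mul, AlgHom.commutes]
  exact mul_left_cancel₀ hcst0 (add_left_cancel (h3.symm.trans e₂))

end Fermat.Agent.S33.New.EQ

end
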