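/-
S33, node New, block N2 (architect helper73), file Orbit (helper45).

`K` an ABSTRACT field with `[Algebra ℚ K] [Algebra K Kbar]`, `τ : K ≃+* K` of finite order,
`g₀ = BAD.LevelQ.Mod.gal τ N` acting on `FK K N ⊆ K((q))`.  The inputs of `Nodal.LQ.tor_deep` which
do not depend on the model:
* `orbit τ N n u₀`          : the finite orbit `U` of `u₀` (`self_mem_orbit`, `gal_mem_orbit` = `hUg`,
                              `orbit_induction`);
* `range_of_isIntegralElem` : `hL` for `L = K((q))`, `ι = incl K N`;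
* `exists_pow_eq_of_mem_orbit` : `hUL`;
* `bcBar_gal`               : `bcBar (gal τ y) = galF σ (bcBar y)`;
* `riemK_prod_orbit`        : `hUR`.
-/
import Fermat.Agent.Nodal.Riem.Descent
import Fermat.Agent.BAD.LevelQ.Mod.GalDefs
import Fermat.Agent.S33.Cech.Mod.Series

set_option autoImplicit false

noncomputable section

namespace Fermat.Agent.S33.New.Orbit

open ModularCurve AlgebraicCurve Fermat.Agent.S24 Fermat.Agent.S18 Fermat.Agent.S18.Descent
  Fermat.Agent.BAD.LevelQ.Mod Fermat.Agent.Nodal Fermat.Agent.GAL.E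

variable {K : Type*} [Field K] [Algebra ℚ K]

/-! ### The orbit -/

theorem coeff_iterate_gal (τ : K ≃+* K) (N : ℕ) (f : FK K N) (i : ℕ) (k : ℤ) :
    (((gal τ N)^[i] f : FK K N) : LaurentSeries K).coeff k =
      τ^[i] ((f : LaurentSeries K).coeff k) := by
  induction i with
  | zero => rfl
  | succ i ih =>
    rw [Function.iterate_succ_apply', Function.iterate_succ_apply', coe_gal, coeffMap_coeff, ih]
    rfl

theorem iterate_gal_eq_self (τ : K ≃+* K) (N : ℕ) {n : ℕ} (hτ : ∀ a : K, τ^[n] a = a)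
    (f : FK K N) : (gal τ N)^[n] f = f := by
  apply Subtype.ext
  ext k
  rw [coeff_iterate_gal, hτ]

open Classical in
/-- The orbit of `u₀` under `gal τ N` (`n` = a multiple of the order of `τ`). -/
def orbit (τ : K ≃+* K) (N n : ℕ) (u₀ : FK K N) : Finset (FK K N) :=
  (Finset.range n).image fun i => (gal τ N)^[i] u₀

theorem mem_orbit {τ : K ≃+* K} {N n : ℕ} {u₀ u : FK K N} :
    u ∈ orbit τ N n u₀ ↔ ∃ i < n, (gal τ N)^[i] u₀ = u := by
  classical
  unfold orbit
  simp only [Finset.mem_image, Finset.mem_range]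

theorem self_mem_orbit (τ : K ≃+* K) (N : ℕ) {n : ℕ} (hn : 0 < n) (u₀ : FK K N) :
    u₀ ∈ orbit τ N n u₀ := mem_orbit.2 ⟨0, hn, rfl⟩

/-- `hUg`. -/
theorem gal_mem_orbit (τ : K ≃+* K) (N : ℕ) {n : ℕ} (hn : 0 < n) (hτ : ∀ a : K, τ^[n] a = a)
    (u₀ : FK K N) : ∀ u ∈ orbit τ N n u₀, gal τ N u ∈ orbit τ N n u₀ := by
  intro u hu
  obtain ⟨i, hi, rfl⟩ := mem_orbit.1 hu
  have e : gal τ N ((gal τ N)^[i] u₀) = (gal τ N)^[i + 1] u₀ :=
    (Function.iterate_succ_apply' _ _ _).symm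
  rw [e]
  rcases Nat.lt_or_ge (i + 1) n with h | h
  · exact mem_orbit.2 ⟨i + 1, h, rfl⟩
  · have : i + 1 = n := by omega
    rw [this, iterate_gal_eq_self τ N hτ]
    exact self_mem_orbit τ N hn u₀

theorem orbit_induction {τ : K ≃+* K} {N n : ℕ} {u₀ : FK K N} {P : FK K N → Prop} (h0 : P u₀)
    (hs : ∀ u, P u → P (gal τ N u)) : ∀ u ∈ orbit τ N n u₀, P u := by
  intro u hu
  obtain ⟨i, -, rfl⟩ := mem_orbit.1 hu
  clear hu
  induction i with
  | zero => exact h0
  | succ i ih =>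
    rw [Function.iterate_succ_apply']
    exact hs _ ih

/-! ### `L = K((q))` -/

/-- The inclusion `FK K N ⊆ K((q))`. -/
def incl (K : Type*) [Field K] [Algebra ℚ K] (N : ℕ) : FK K N →+* LaurentSeries K :=
  algebraMap (FK K N) (LaurentSeries K)

theorem incl_apply (N : ℕ) (f : FK K N) : incl K N f = (f : LaurentSeries K) := rfl

theorem incl_comp_algebraMap (N : ℕ) :
    (incl K N).comp (algebraMap K (FK K N)) = algebraMap K (LaurentSeries K) := rfl

/-- `hL`: `K` is algebraically closed in `K((q))`. -/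
theorem range_of_isIntegralElem (N : ℕ) : ∀ z : LaurentSeries K,
    ((incl K N).comp (algebraMap K (FK K N))).IsIntegralElem z →
      z ∈ ((incl K N).comp (algebraMap K (FK K N))).range := by
  rintro z ⟨f, hf, h⟩
  rw [incl_comp_algebraMap] at h ⊢
  obtain ⟨c, hc⟩ := Cech.exists_const_of_aeval_eq_zero z f hf h
  exact ⟨c, hc.symm⟩

/-- `hUL`: if `u₀` is a `p`-th power in `K((q))` then so are all the elements of its orbit. -/
theorem exists_pow_eq_of_mem_orbit {τ : K ≃+* K} {N n p : ℕ} {u₀ : FK K N}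
    (h : ∃ z : LaurentSeries K, z ^ p = incl K N u₀) :
    ∀ u ∈ orbit τ N n u₀, ∃ z : LaurentSeries K, z ^ p = incl K N u := by
  refine orbit_induction h ?_
  rintro u ⟨z, hz⟩
  refine ⟨coeffMap (τ : K →+* K) z, ?_⟩
  rw [← map_pow, hz, incl_apply, incl_apply, coe_gal]

/-! ### Comparison with `ℚ̄` -/

variable [Algebra K Kbar]

theorem bcBar_gal (σ : GQ) (τ : K ≃+* K)
    (hσ : ∀ a : K, σ (algebraMap K Kbar a) = algebraMap K Kbar (τ a)) (N : ℕ) (f : FK K N) :
    bcBar N (gal τ N f) = galF N σ (bcBar N f) := by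
  apply Subtype.ext
  rw [coe_galF, coe_baseChangeMap, coe_baseChangeMap, coe_gal, coeffMap_coeffMap,
    coeffMap_coeffMap]
  exact coeffMap_congr (RingHom.ext fun a => (hσ a).symm) _

theorem ne_zero_of_mem_orbit {τ : K ≃+* K} {N n : ℕ} {u₀ : FK K N} (h0 : u₀ ≠ 0) :
    ∀ u ∈ orbit τ N n u₀, u ≠ 0 :=
  orbit_induction h0 fun _ hu => (map_ne_zero_iff _ (gal τ N).injective).2 hu

theorem isKum_of_mem_orbit (σ : GQ) {τ : K ≃+* K}
    (hσ : ∀ a : K, σ (algebraMap K Kbar a) = algebraMap K Kbar (τ a)) {N n m : ℕ} {u₀ : FK K N}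
    (h0 : IsKum N m (bcBar N u₀)) : ∀ u ∈ orbit τ N n u₀, IsKum N m (bcBar N u) :=
  orbit_induction h0 fun u hu => by
    rw [bcBar_gal σ τ hσ]
    exact hu.galF σ

theorem isKum_prod {N m : ℕ} {ι : Type*} (s : Finset ι) (f : ι → FN N)
    (h : ∀ i ∈ s, IsKum N m (f i)) : IsKum N m (∏ i ∈ s, f i) := by
  classical
  induction s using Finset.induction_on with
  | empty => simpa using isKum_one N m
  | insert a s ha ih =>
    rw [Finset.prod_insert ha]
    exact (h a (Finset.mem_insert_self a s)).mul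
      (ih fun i hi => h i (Finset.mem_insert_of_mem hi))

/-- `hUR`. -/
theorem riemK_prod_orbit (σ : GQ) {τ : K ≃+* K}
    (hσ : ∀ a : K, σ (algebraMap K Kbar a) = algebraMap K Kbar (τ a)) {N : ℕ} [NeZero N] (n : ℕ)
    (x : FK K N) (hx : Transcendental K x) (m : ℕ) (hm : 0 < m) (u₀ : FK K N) (hu0 : u₀ ≠ 0)
    (hu : IsKum N m (bcBar N u₀)) (e : FK K N → ℕ) :
    RiemK K (FK K N) x m (∏ u ∈ orbit τ N n u₀, u ^ e u) := by
  refine riemK_of_isKum N x hx m hm _ ?_ ?_
  · exact Finset.prod_ne_zero_iff.2 fun u hu' => pow_ne_zero _ (ne_zero_of_mem_orbit hu0 u hu')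
  · rw [map_prod]
    refine isKum_prod _ _ fun u hu' => ?_
    rw [map_pow]
    exact (isKum_of_mem_orbit σ hσ hu u hu').pow _

end Fermat.Agent.S33.New.Orbit

end
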