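/-
S33, node New, block N2: the K-level theorem `eqK` (helper45).
-/
import Fermat.Agent.S33.New.EQ.Orbit
import Fermat.Agent.Nodal.LQ.Tor
import Fermat.Agent.BAD.LevelQ.Mod.Main
import Fermat.Agent.BAD.LevelQ.Mod.GalAlg
import Fermat.Agent.BAD.LevelQ.Mod.GalVal
import Fermat.Agent.BAD.LevelQ.Hub.Basic

set_option autoImplicit false

noncomputable section

namespace Fermat.Agent.S33.New.Orbit

open ModularCurve AlgebraicCurve Fermat.Agent.S24 Fermat.Agent.S18 Fermat.Agent.S18.Descent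
  Fermat.Agent.BAD.LevelQ Fermat.Agent.BAD.LevelQ.Mod Fermat.Agent.Nodal Fermat.Agent.GAL.E

variable {K : Type*} [Field K] [Algebra ℚ K] [Algebra K Kbar]
  {A₀ : ValuationSubring K} [IsDiscreteValuationRing A₀] {ϖ₀ : K}
  {M p : ℕ} [NeZero M] [NeZero p]

/-- **`NodalEQ` over an abstract field `K ⊆ ℚ̄`.** -/
theorem eqK (h₀ : IsUnif A₀ ϖ₀) (hp : p.Prime) (hpM : ¬ p ∣ M) (hchar : A₀.valuation (p : K) < 1)
    (hc : M.Coprime p) {γ₀ : K →+* K} (hγ : IsFrobInv A₀ p γ₀) (D : BaseData M p) (hD : BeInt D)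
    (hfin : Finite (IsLocalRing.ResidueField A₀))
    (ζ : K) (hζ : IsPrimitiveRoot ζ p)
    (τ : K ≃+* K) (hτA : A₀.comap (τ : K →+* K) = A₀)
    (hτ1 : ∀ a ∈ A₀, (τ a - a) / ϖ₀ ^ 1 ∈ A₀)
    (n : ℕ) (hn : 0 < n) (hτn : ∀ a, τ^[n] a = a)
    (σ : GQ) (hσ : ∀ a : K, σ (algebraMap K Kbar a) = algebraMap K Kbar (τ a))
    (ε : ℕ) (hε : τ ζ = ζ ^ ε)
    (δ : K) (hδ0 : δ ≠ 0) (hδ : A₀.valuation (δ / (ζ - 1) ^ p) < 1) (hδτ : τ δ = δ)
    (u₀ : FK K (M * p)) (hu0 : u₀ ≠ 0) (hkum : IsKum (M * p) p (bcBar (M * p) u₀))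
    (hd : ∀ c, (u₀ - 1) / algebraMap K (FK K (M * p)) δ ∈ VV A₀ hc c)
    (hroot : ∃ z : LaurentSeries K, z ^ p = incl K (M * p) u₀) :
    ∃ f : FK K (M * p), gal τ (M * p) u₀ = u₀ ^ ε * f ^ p := by
  have : CharZero K := algebraRat.charZero K
  have H := lq h₀ hp hpM hchar hc hγ D hD
  have hζ1 : ζ - 1 ≠ 0 := sub_ne_zero.2 (hζ.ne_one hp.one_lt)
  have hτA' : ∀ a, τ a ∈ A₀ ↔ a ∈ A₀ := by
    intro a
    conv_rhs => rw [← hτA]
    rfl
  have hxx := gal_xx (q := p) τ D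
  have hxx' : gal τ (M * p) (xx (al K M p) (be K M p) (D.xK K))⁻¹ =
      (xx (al K M p) (be K M p) (D.xK K))⁻¹ := by rw [map_inv₀, hxx]
  -- `g₀` is trivial on the residue field of `V 0`
  have htriv : ∀ b ∈ VV A₀ hc 0, (VV A₀ hc 0).valuation (gal τ (M * p) b - b) < 1 := by
    intro b hb
    have h1 := gal_sub_mem_VV h₀ hτA 1 hτ1 hc 0 b hb
    rw [pow_one] at h1
    exact (Two.lt_one_iff_div_mem (H.unif_all 0) _).2 h1
  have hcr₁ : CrossPow (ch₁ A₀ (al K M p) (be K M p) (D.xK K)) (VV A₀ hc) (gal τ (M * p)) :=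
    crossPow_of_trivial _ _ _ (fun b hb => gal_mem_chart hτA hxx hb)
      (fun b hb => htriv b (((H.mem_ch₁_iff b).1 hb).1 0))
  have hcr₂ : CrossPow (ch₂ A₀ (al K M p) (be K M p) (D.xK K)) (VV A₀ hc) (gal τ (M * p)) :=
    crossPow_of_trivial _ _ _ (fun b hb => gal_mem_chart hτA hxx' hb)
      (fun b hb => htriv b (((H.mem_ch₂_iff b).1 hb).1 0))
  -- depth on the orbit
  have hdU : ∀ u ∈ orbit τ (M * p) n u₀, ∀ c,
      (u - 1) / algebraMap K (FK K (M * p)) δ ∈ VV A₀ hc c := by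
    refine orbit_induction hd fun u hu c => ?_
    have e : (gal τ (M * p) u - 1) / algebraMap K (FK K (M * p)) δ =
        gal τ (M * p) ((u - 1) / algebraMap K (FK K (M * p)) δ) := by
      rw [map_div₀, map_sub, map_one, gal_const, hδτ]
    rw [e, gal_mem_VV hτA hc c]
    exact hu c
  have hconst : ∀ c, (VV A₀ hc c).valuation
      (algebraMap K (FK K (M * p)) (δ / (ζ - 1) ^ p)) < 1 := by
    intro c
    have h1 := (Two.lt_one_iff_div_mem h₀ _).1 hδ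
    have h2 := H.complete.const_mem c _ h1
    rw [map_div₀] at h2
    exact (Two.lt_one_iff_div_mem (H.unif_all c) _).2 h2
  have hU1 : ∀ u ∈ orbit τ (M * p) n u₀, ∀ c, ∃ z : FK K (M * p),
      (VV A₀ hc c).valuation z < 1 ∧ u - 1 = algebraMap K (FK K (M * p)) (ζ - 1) ^ p * z := by
    intro u hu c
    refine ⟨(u - 1) / algebraMap K (FK K (M * p)) δ *
      algebraMap K (FK K (M * p)) (δ / (ζ - 1) ^ p), ?_, ?_⟩
    · rw [map_mul]
      exact lt_of_le_of_lt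
        (mul_le_of_le_one_left' (((VV A₀ hc c).valuation_le_one_iff _).2 (hdU u hu c))) (hconst c)
    · have h1 : algebraMap K (FK K (M * p)) δ ≠ 0 := (map_ne_zero _).2 hδ0
      have h2 : algebraMap K (FK K (M * p)) (ζ - 1) ≠ 0 := (map_ne_zero _).2 hζ1
      rw [map_div₀, map_pow]
      field_simp
  exact LQ.tor_deep H hfin (incl K (M * p)) (range_of_isIntegralElem (M * p)) p hp ζ hζ
    (gal τ (M * p)) τ (gal_const τ (M * p)) hτA' hxx (gal_mem_VV hτA hc) hcr₁ hcr₂ ε hε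
    (orbit τ (M * p) n u₀) (gal_mem_orbit τ (M * p) hn hτn u₀)
    (exists_pow_eq_of_mem_orbit hroot) hU1
    (riemK_prod_orbit σ hσ n _ (H.isMCoord 0).transcendental p hp.pos u₀ hu0 hkum)
    u₀ (self_mem_orbit τ (M * p) hn u₀)

end Fermat.Agent.S33.New.Orbit

end
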