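/-
S33, NodeNew, block N2 (chief helper165): **`NodalEQ`**.  Descent from `ℚ̄` to a normal number field
`K₀ ∋ ζ_p`, the `K`-level theorem `Orbit.eqK` (nodal core), and the return trip.
-/
import Fermat.Agent.S33.New.EQ.KAbs
import Fermat.Agent.S33.New.EQ.Arith
import Fermat.Agent.S33.New.EQ.Gauss
import Fermat.Agent.S33.New.Br.Root
import Fermat.Agent.S33.Old.BridgeKum
import Fermat.Agent.BAD.LevelQ.Mod.MainSub
import Fermat.Agent.S33.New.Top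

set_option autoImplicit false

noncomputable section

namespace Fermat.Agent.S33.New

open ModularCurve Fermat.Agent.S24 Fermat.Agent.GAL Fermat.Agent.GAL.E Fermat.Agent.C1
  Fermat.Agent.S18 Fermat.Agent.S33.Old Fermat.Agent.BAD.LevelQ Fermat.Agent.S30

/-- **The nodal core at level `M p`, exponent `p`, over `ℚ̄`.** -/
theorem nodalEQ {M p : ℕ} [NeZero M] [NeZero p] (hp : p.Prime) (hp2 : p ≠ 2) (hpM : ¬ p ∣ M)
    (h : 5 ≤ p ∨ (p = 3 ∧ 2 ∣ M)) : NodalEQ M p := by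
  intro D A hA u hK c1 c2 s hs a ha
  have : Fact p.Prime := ⟨hp⟩
  have hc : M.Coprime p := ((Nat.Prime.coprime_iff_not_dvd hp).2 hpM).symm
  obtain ⟨D', -, hD'⟩ := Mod.exists_good_base (M := M) hp (h.imp_right Or.inl)
  obtain ⟨ζ, hζ⟩ : ∃ ζ : Kbar, IsPrimitiveRoot ζ p :=
    HasEnoughRootsOfUnity.exists_primitiveRoot Kbar p
  have hpn : ((p : Kbar) ^ 2) ∈ A.nonunits := by
    rw [ValuationSubring.mem_nonunits_iff, map_pow]
    exact pow_lt_one₀ zero_le ((ValuationSubring.mem_nonunits_iff A).1 hA) two_ne_zero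
  have hu0 : u ≠ 0 := fun h0 => c1.ne_zero hpn (by rw [h0]; rfl)
  obtain ⟨K₀, hfd, hnor, ⟨⟨⟨hζK, ⟨u₀, hu₀⟩⟩, hdeep⟩, hlead⟩, hkum⟩ :=
    (((((ev_mem ζ).and (ev_defined u)).and (EQ.ev_deep hp hc D A hA u c1 c2)).and
      (ev_leadingCoeff_pow hp.pos u)).and (ev_kum u hK)).exists_normal
  have : IsDiscreteValuationRing (rA A K₀) :=
    Descent.isDiscreteValuationRing_restrict K₀ hp.ne_zero hA
  obtain ⟨ϖ₀, h₀, -⟩ := S18.exists_isUnif_comap A hA K₀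
  obtain ⟨γ₀, hγ⟩ := Mod.exists_isFrobInv_of_normal A hp hA K₀
  obtain ⟨τ, hτ⟩ := exists_restrict K₀ s
  obtain ⟨n, hn, hτn⟩ := EQ.exists_iterate_eq K₀ τ
  have hζ₀ : IsPrimitiveRoot (⟨ζ, hζK⟩ : K₀) p :=
    IsPrimitiveRoot.of_map_of_injective (f := algebraMap K₀ Kbar)
      (hf := (algebraMap K₀ Kbar).injective) hζ
  have hu₀0 : u₀ ≠ 0 := by
    rintro rfl
    exact hu0 (by rw [← hu₀, map_zero])
  obtain ⟨d1, d2⟩ := hdeep u₀ hu₀
  obtain ⟨f, hf⟩ := Orbit.eqK h₀ hp hpM (Mod.valuation_natCast_comap_lt_one A hA K₀) hc hγ D' hD'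
    (EQ.finite_residueField_rA hp A hA K₀) ⟨ζ, hζK⟩ hζ₀ τ (comap_restrict hτ A hs)
    (EQ.restrict_sub_div_mem hτ A hs h₀) n hn hτn s (fun a => (hτ a).symm) a
    (restrict_zeta hτ ha _ hζ₀.pow_eq_one) ((p : K₀) ^ 2)
    (pow_ne_zero _ (Nat.cast_ne_zero.2 hp.ne_zero))
    (EQ.valuation_sq_div_lt_one hp hp2 A hA K₀ _ hζ₀) (by rw [map_pow, map_natCast]) u₀ hu₀0
    (by
      have e : Nodal.bcBar (M * p) u₀ = u := hu₀
      rw [e]
      exact hK)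
    (EQ.mem_VV_of_gauss h₀ hc _ d1 d2)
    (exists_series_pow_eq hp.pos u₀ hu₀0 (hkum u₀ hu₀) (hlead u₀ hu₀))
  refine ⟨tb (M * p) K₀ f, ?_⟩
  rw [← hu₀, ← tb_gal hτ, hf, map_mul, map_pow, map_pow]

end Fermat.Agent.S33.New

end
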