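/-
S33, node New, block N2 (helper45): the residue field of a valuation subring of residue
characteristic `p` of a number field is finite.  Mathlib only.
-/
import Mathlib

set_option autoImplicit false

namespace Fermat.Agent.S33.New.Orbit

open IsLocalRing

variable {K : Type*} [Field K] [Algebra ℚ K]

/-- Lifts of `𝔽_p`-linearly independent elements of the residue field are `ℤ`-linearly
independent. -/
theorem resFinite_dvd (V : ValuationSubring K) {p : ℕ} [Fact p.Prime] [CharP (ResidueField V) p]
    [Algebra (ZMod p) (ResidueField V)] {ι : Type*} [Fintype ι] (x : ι → V)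
    (hx : LinearIndependent (ZMod p) fun i => residue V (x i)) (m : ℕ) :
    ∀ c : ι → ℤ, ∑ i, c i • ((x i : V) : K) = 0 → ∀ i, (p : ℤ) ^ m ∣ c i := by
  have : CharZero K := algebraRat.charZero K
  induction m with
  | zero => intro c _ i; simp
  | succ m ih =>
    intro c hc
    have h1 : ∑ i, (c i : V) * x i = 0 := by
      apply Subtype.ext
      have e0 : ((0 : V) : K) = 0 := rfl
      rw [e0, ← hc]
      push_cast
      exact Finset.sum_congr rfl fun i _ => by rw [zsmul_eq_mul]
    have h2 : ∑ i, ((c i : ℤ) : ZMod p) • residue V (x i) = 0 := by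
      have h3 := congrArg (residue V) h1
      rw [map_sum, map_zero] at h3
      rw [← h3]
      refine Finset.sum_congr rfl fun i _ => ?_
      rw [map_mul, map_intCast, Algebra.smul_def, map_intCast]
    have h4 := Fintype.linearIndependent_iff.1 hx _ h2
    have h5 : ∀ i, (p : ℤ) ∣ c i := fun i => (ZMod.intCast_zmod_eq_zero_iff_dvd (c i) p).1 (h4 i)
    choose d hd using h5
    have h6 : ∑ i, d i • ((x i : V) : K) = 0 := by
      have hp0 : (p : K) ≠ 0 := Nat.cast_ne_zero.2 (Fact.out : p.Prime).ne_zero
      apply mul_left_cancel₀ hp0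
      rw [mul_zero, ← hc, Finset.mul_sum]
      refine Finset.sum_congr rfl fun i _ => ?_
      rw [hd i, zsmul_eq_mul, zsmul_eq_mul]
      push_cast
      ring
    intro i
    rw [hd i, pow_succ']
    exact mul_dvd_mul_left _ (ih d h6 i)

theorem resFinite_eq_zero {p : ℕ} (hp : 1 < p) {c : ℤ} (h : ∀ m : ℕ, (p : ℤ) ^ m ∣ c) : c = 0 := by
  apply Int.eq_zero_of_abs_lt_dvd (h c.natAbs)
  have h1 : c.natAbs < p ^ c.natAbs := Nat.lt_pow_self hp
  rw [Int.abs_eq_natAbs]
  exact_mod_cast h1

/-- **The residue field is finite.** -/
theorem finite_residueField [FiniteDimensional ℚ K] (V : ValuationSubring K) {p : ℕ}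
    (hp : p.Prime) (hV : (p : K) ∈ V.nonunits) : Finite (ResidueField V) := by
  have : Fact p.Prime := ⟨hp⟩
  have hchar : CharP (ResidueField V) p := by
    apply (CharP.charP_iff_prime_eq_zero hp).2
    rw [ValuationSubring.mem_nonunits_iff_exists_mem_maximalIdeal] at hV
    obtain ⟨hm, h⟩ := hV
    have h1 : residue V (⟨(p : K), hm⟩ : V) = 0 := (residue_eq_zero_iff _).2 h
    have h2 : (⟨(p : K), hm⟩ : V) = (p : V) := Subtype.ext (by simp)
    rw [h2, map_natCast] at h1
    exact h1
  let _ : Algebra (ZMod p) (ResidueField V) := ZMod.algebra _ p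
  have hrank : Module.rank (ZMod p) (ResidueField V) ≤ (Module.finrank ℚ K : ℕ) := by
    apply rank_le
    intro s hs
    let f : ResidueField V → V := Function.surjInv residue_surjective
    have hf : ∀ y, residue V (f y) = y := Function.surjInv_eq residue_surjective
    have hx : LinearIndependent (ZMod p) fun i : s => residue V (f (i : ResidueField V)) := by
      simpa only [hf] using hs
    have hZ : LinearIndependent ℤ fun i : s => ((f (i : ResidueField V) : V) : K) := by
      rw [Fintype.linearIndependent_iff]
      intro c hc i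
      exact resFinite_eq_zero hp.one_lt fun m => resFinite_dvd V _ hx m c hc i
    have hQ : LinearIndependent ℚ fun i : s => ((f (i : ResidueField V) : V) : K) :=
      (LinearIndependent.iff_fractionRing ℤ ℚ).1 hZ
    have := hQ.fintype_card_le_finrank
    rwa [Fintype.card_coe] at this
  have hfin : Module.Finite (ZMod p) (ResidueField V) :=
    Module.rank_lt_aleph0_iff.1 (lt_of_le_of_lt hrank (Cardinal.nat_lt_aleph0 _))
  exact Module.finite_of_finite (ZMod p)

end Fermat.Agent.S33.New.Orbit
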