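/-
S33, node New, block N2 (helper45, shadow of helper73's `EQ/Main.lean`): **`NodalEQ M p`**.
Choice of a normal number field `K₀` (Ev-calculus of helper93), descent of all the data
(`S33/New/Br/*`, chief helper165), the `K`-level theorem `Orbit.eqK`, and the return trip.
-/
import Fermat.Agent.S33.New.EQ.KAbs
import Fermat.Agent.S33.New.EQ.ResFinite
import Fermat.Agent.S33.New.Top
import Fermat.Agent.S33.New.Br.AL
import Fermat.Agent.S33.New.Br.Gal
import Fermat.Agent.S33.New.Br.GaussInt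
import Fermat.Agent.S33.New.Br.Root
import Fermat.Agent.S33.New.Br.Zeta
import Fermat.Agent.S33.Old.BridgeKum
import Fermat.Agent.S33.Old.BridgeGauss
import Fermat.Agent.S18.Descent.DVRUnif
import Fermat.Agent.BAD.LevelQ.Mod.Frob
import Fermat.Agent.BAD.LevelQ.Mod.PoleH

set_option autoImplicit false

noncomputable section

namespace Fermat.Agent.S33.New.Orbit

open ModularCurve AlgebraicCurve Fermat.Agent.S24 Fermat.Agent.S24.B Fermat.Agent.S18
  Fermat.Agent.S18.Descent Fermat.Agent.BAD.LevelQ Fermat.Agent.BAD.LevelQ.Mod Fermat.Agent.Nodal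
  Fermat.Agent.GAL.E Fermat.Agent.C1 Fermat.Agent.S33.Old Fermat.Agent.S30

/-- an automorphism of a number field has finite order -/
theorem exists_iterate_eq {K : Type*} [Field K] [Algebra ℚ K] [FiniteDimensional ℚ K]
    (τ : K ≃+* K) : ∃ n, 0 < n ∧ ∀ a, τ^[n] a = a := by
  let t : K ≃ₐ[ℚ] K := AlgEquiv.ofRingEquiv (f := τ) (fun q => by simp)
  obtain ⟨n, hn, h⟩ := isOfFinOrder_iff_pow_eq_one.1 (isOfFinOrder_of_finite t)
  refine ⟨n, hn, fun a => ?_⟩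
  have h1 : ∀ (m : ℕ) (a : K), (t ^ m) a = τ^[m] a := by
    intro m
    induction m with
    | zero => intro a; rfl
    | succ m ih =>
      intro a
      rw [pow_succ, AlgEquiv.mul_apply, ih, Function.iterate_succ_apply]
      rfl
  rw [← h1, h]
  rfl

/-- `ζ_p ≡ 1` in residue characteristic `p` -/
theorem valuation_zeta_sub_one_lt_one {L : Type*} [Field L] (V : ValuationSubring L) {p : ℕ}
    (hp : p.Prime) (hV : (p : L) ∈ V.nonunits) {ζ : L} (hζ : ζ ^ p = 1) :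
    V.valuation (ζ - 1) < 1 := by
  have : Fact p.Prime := ⟨hp⟩
  have hchar : CharP (IsLocalRing.ResidueField V) p := by
    apply (CharP.charP_iff_prime_eq_zero hp).2
    rw [ValuationSubring.mem_nonunits_iff_exists_mem_maximalIdeal] at hV
    obtain ⟨hm, h⟩ := hV
    have h1 : IsLocalRing.residue V (⟨(p : L), hm⟩ : V) = 0 :=
      (IsLocalRing.residue_eq_zero_iff _).2 h
    have h2 : (⟨(p : L), hm⟩ : V) = (p : V) := Subtype.ext (by simp)
    rw [h2, map_natCast] at h1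
    exact h1
  have hζV : ζ ∈ V := by
    rw [← V.valuation_le_one_iff]
    have h1 : V.valuation ζ ^ p = 1 := by rw [← map_pow, hζ, map_one]
    exact (((pow_eq_one_iff).1 h1).resolve_right hp.ne_zero).le
  have h1 : IsLocalRing.residue V ((⟨ζ, hζV⟩ : V) - 1) ^ p = 0 := by
    rw [map_sub, map_one, sub_pow_char, one_pow, ← map_pow]
    have : (⟨ζ, hζV⟩ : V) ^ p = 1 := Subtype.ext hζ
    rw [this, map_one, sub_self]
  have h2 := (pow_eq_zero_iff hp.ne_zero).1 h1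
  rw [IsLocalRing.residue_eq_zero_iff, ValuationSubring.valuation_lt_one_iff] at h2
  exact h2

theorem mem_Og_of_mem_gaussSubring {K : Type*} [Field K] [Algebra ℚ K] {A₀ : ValuationSubring K}
    [IsDiscreteValuationRing A₀] {N : ℕ} {y : FK K N} (hy : y ∈ Vert.gaussSubring A₀ (FK K N)) :
    y ∈ Og A₀ N := by
  obtain ⟨P, Q, -, -, hQ, h⟩ := hy
  exact ((S36.Mod.stdEmb A₀ N).mem_val_iff y).2 ⟨P, Q, hQ, h⟩

/-- **`NodalEQ`.** -/
theorem nodalEQ {M p : ℕ} [NeZero M] [NeZero p] (hp : p.Prime) (hp2 : p ≠ 2) (hpM : ¬ p ∣ M)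
    (hbase : 5 ≤ p ∨ (p = 3 ∧ 2 ∣ M)) : NodalEQ M p := by
  intro D A hA u hkum hd0 hd1 s hs a ha
  have : Fact p.Prime := ⟨hp⟩
  by_cases hu0 : u = 0
  · exact ⟨0, by rw [hu0, map_zero, zero_pow hp.ne_zero, mul_zero]⟩
  have hc : M.Coprime p := Nat.Coprime.symm ((Nat.Prime.coprime_iff_not_dvd hp).2 hpM)
  obtain ⟨BD, -, hBD⟩ := exists_good_base (M := M) hp (hbase.imp id fun h => Or.inl h)
  have hζ : IsPrimitiveRoot ((zetaK p : Kbarˣ) : Kbar) p :=
    (isPrimitiveRoot_zetaK p).map_of_injective Units.coeHom_injective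
  generalize ((zetaK p : Kbarˣ) : Kbar) = ζ at hζ
  have hp0 : (p : Kbar) ≠ 0 := Nat.cast_ne_zero.2 hp.ne_zero
  have hδ0 : (p : Kbar) ^ 2 ≠ 0 := pow_ne_zero _ hp0
  obtain ⟨y, hy, huy⟩ := exists_gaussInt_of_congD hp hA hδ0 u hd0
  obtain ⟨y', hy', huy'⟩ := exists_gaussInt_of_congD hp hA hδ0 (D.w u) hd1
  obtain ⟨K₀, hfin, hnorm, ⟨u₀, hu₀⟩, hζK, hgy, hgy', hlc, hkum₀⟩ :=
    ((ev_defined u).and ((ev_mem ζ).and ((ev_gaussInt A y hy).and ((ev_gaussInt A y' hy').and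
      ((ev_leadingCoeff_pow hp.pos u).and (ev_kum u hkum)))))).exists_normal
  obtain ⟨ϖ₀, h₀, -⟩ := exists_isUnif_comap A hA K₀
  have hdvr : IsDiscreteValuationRing (rA A K₀) :=
    Descent.isDiscreteValuationRing_restrict K₀ hp.ne_zero hA
  obtain ⟨γ₀, hγ⟩ := exists_isFrobInv_of_normal A hp hA K₀
  obtain ⟨τ, hτ⟩ := Fermat.Agent.S33.New.exists_restrict K₀ s
  obtain ⟨n, hn, hτn⟩ := exists_iterate_eq τ
  have hpK : (p : K₀) ∈ (rA A K₀).nonunits := Descent.restrict_liesOverPrime K₀ hA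
  have hchar : (rA A K₀).valuation (p : K₀) < 1 := (ValuationSubring.mem_nonunits_iff _).1 hpK
  have hfinres : Finite (IsLocalRing.ResidueField (rA A K₀)) := finite_residueField _ hp hpK
  have hτA := comap_restrict hτ A hs
  have hτ1 : ∀ a ∈ rA A K₀, (τ a - a) / ϖ₀ ^ 1 ∈ rA A K₀ := by
    intro a ha
    rw [pow_one]
    exact (Two.lt_one_iff_div_mem h₀ _).1
      ((ValuationSubring.mem_nonunits_iff _).1 (restrict_sub_mem_nonunits hτ A hs a ha))
  have hζ₀ : IsPrimitiveRoot (⟨ζ, hζK⟩ : K₀) p :=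
    IsPrimitiveRoot.of_map_of_injective (f := algebraMap K₀ Kbar) hζ (algebraMap K₀ Kbar).injective
  have hε := restrict_zeta hτ ha (⟨ζ, hζK⟩ : K₀) hζ₀.pow_eq_one
  have hpK0 : (p : K₀) ≠ 0 := Nat.cast_ne_zero.2 hp.ne_zero
  have hζ1 : ζ - 1 ≠ 0 := sub_ne_zero.2 (hζ.ne_one hp.one_lt)
  -- `p ^ 2 / (ζ - 1) ^ p` is not a unit
  have hδ : (rA A K₀).valuation ((p : K₀) ^ 2 / ((⟨ζ, hζK⟩ : K₀) - 1) ^ p) < 1 := by
    rw [← ValuationSubring.mem_nonunits_iff]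
    refine (mem_nonunits_restrict (A := A) (K₀ := K₀)).2 ?_
    obtain ⟨e, he⟩ := exists_sq_eq_zeta_sub_one_pow A hp hp2 ζ hζ
    have h1 : (((p : K₀) ^ 2 / ((⟨ζ, hζK⟩ : K₀) - 1) ^ p : K₀) : Kbar) = (e : Kbar) * (ζ - 1) := by
      have h2 : (((p : K₀) ^ 2 / ((⟨ζ, hζK⟩ : K₀) - 1) ^ p : K₀) : Kbar) =
          (p : Kbar) ^ 2 / (ζ - 1) ^ p := by
        push_cast
        rfl
      rw [h2, he, pow_succ]
      field_simp
    rw [h1]
    exact Nodal.mul_mem_nonunits A e.2 ((ValuationSubring.mem_nonunits_iff _).2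
      (valuation_zeta_sub_one_lt_one A hp hA hζ.pow_eq_one))
  have hu₀0 : u₀ ≠ 0 := by
    rintro rfl
    exact hu0 (by rw [← hu₀, map_zero])
  -- the depth
  have hδK : tb (M * p) K₀ (algebraMap K₀ (FK K₀ (M * p)) ((p : K₀) ^ 2)) =
      algebraMap Kbar (FN (M * p)) ((p : Kbar) ^ 2) := by
    rw [toBar_algebraMap]
    congr 1
  have hδF : algebraMap Kbar (FN (M * p)) ((p : Kbar) ^ 2) ≠ 0 := (map_ne_zero _).2 hδ0
  have hy₀ : tb (M * p) K₀ ((u₀ - 1) / algebraMap K₀ (FK K₀ (M * p)) ((p : K₀) ^ 2)) = y := by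
    rw [map_div₀, map_sub, map_one, hu₀, hδK, huy, add_sub_cancel_left, mul_div_cancel_left₀ _ hδF]
  have hwy : D.w y = y' := by
    have h1 : D.w u = 1 + algebraMap Kbar (FN (M * p)) ((p : Kbar) ^ 2) * D.w y := by
      conv_lhs => rw [huy]
      rw [map_add, map_one, map_mul, AlgHom.commutes]
    rw [huy'] at h1
    exact (mul_left_cancel₀ hδF (add_left_cancel h1)).symm
  have hd : ∀ c, (u₀ - 1) / algebraMap K₀ (FK K₀ (M * p)) ((p : K₀) ^ 2) ∈ VV (rA A K₀) hc c := by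
    have h0 : ∀ z : FK K₀ (M * p), z ∈ Vert.gaussSubring (rA A K₀) (FK K₀ (M * p)) →
        z ∈ VV (rA A K₀) hc 0 := by
      intro z hz
      rw [GalVal_VV_zero]
      exact mem_Og_of_mem_gaussSubring hz
    intro c
    fin_cases c
    · exact h0 _ (hgy _ hy₀)
    · refine (mem_VV_one hc _).2 (h0 _ (hgy' _ ?_))
      rw [tb_ww hp D hc, hy₀, hwy]
  have hroot : ∃ z : LaurentSeries K₀, z ^ p = incl K₀ (M * p) u₀ :=
    exists_series_pow_eq hp.pos u₀ hu₀0 (hkum₀ u₀ hu₀) (hlc u₀ hu₀)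
  obtain ⟨f, hf⟩ := eqK h₀ hp hpM hchar hc hγ BD hBD hfinres (⟨ζ, hζK⟩ : K₀) hζ₀ τ hτA hτ1 n hn hτn
    s (fun a => (hτ a).symm) a hε ((p : K₀) ^ 2) (pow_ne_zero _ hpK0) hδ
    (by rw [map_pow, map_natCast]) u₀ hu₀0 (by rw [show bcBar (M * p) u₀ = u from hu₀]; exact hkum)
    hd hroot
  refine ⟨tb (M * p) K₀ f, ?_⟩
  rw [← hu₀, ← tb_gal hτ, hf, map_mul, map_pow, map_pow]

end Fermat.Agent.S33.New.Orbit

end
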