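/-
S33, NodeNew, N2 (owner helper73), leaf L1.
-/
import Fermat.Agent.S33.Old.Bridge

set_option autoImplicit false

noncomputable section

namespace Fermat.Agent.S33.New

open Fermat.Agent.S24 Fermat.Agent.S33.Old

/-- general form: a valuation ring above `p` of a number field has finite residue field -/
theorem EQ.finite_aux {F : Type*} [Field F] [Algebra ℚ F] [FiniteDimensional ℚ F]
    (B : ValuationSubring F) {p : ℕ} (hp : p.Prime) (hB : (p : F) ∈ B.nonunits) :
    Finite (IsLocalRing.ResidueField B) := by
  classical
  have : CharZero F := algebraRat.charZero F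
  have hpF : (p : F) ≠ 0 := by exact_mod_cast hp.ne_zero
  have : Fact p.Prime := ⟨hp⟩
  have hpk : ((p : ℕ) : IsLocalRing.ResidueField B) = 0 := by
    have h1 : ((p : ℕ) : B) ∈ IsLocalRing.maximalIdeal B := by
      rw [← ValuationSubring.coe_mem_nonunits_iff]
      simpa using hB
    have h2 := (IsLocalRing.residue_eq_zero_iff _).2 h1
    rwa [map_natCast] at h2
  have : CharP (IsLocalRing.ResidueField B) p := (CharP.charP_iff_prime_eq_zero hp).2 hpk
  let _ : Algebra (ZMod p) (IsLocalRing.ResidueField B) := ZMod.algebra _ p
  have hrank : Module.rank (ZMod p) (IsLocalRing.ResidueField B) ≤ (Module.finrank ℚ F : ℕ) := by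
    apply rank_le
    intro s hs
    choose a ha using fun i : s => IsLocalRing.residue_surjective (R := B) (i : IsLocalRing.ResidueField B)
    -- descent
    have key : ∀ (m : ℕ) (g : s → ℤ), ∑ i, g i • ((a i : B) : F) = 0 → ∀ i, (p : ℤ) ^ m ∣ g i := by
      intro m
      induction m with
      | zero => intro g _ i; simp
      | succ m ih =>
        intro g hg i
        have h1 : ∑ i, ((g i : ℤ) : B) * a i = 0 := by
          apply Subtype.ext
          have h0 : ((0 : B) : F) = 0 := rfl
          rw [h0, ← hg]
          push_cast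
          simp [zsmul_eq_mul]
        have h2 := congrArg (IsLocalRing.residue B) h1
        rw [map_sum, map_zero] at h2
        have h3 : ∑ i : s, ((g i : ℤ) : ZMod p) • (i : IsLocalRing.ResidueField B) = 0 := by
          rw [← h2]
          refine Finset.sum_congr rfl fun i _ => ?_
          rw [map_mul, ha, map_intCast, Algebra.smul_def, map_intCast]
        have h4 := Fintype.linearIndependent_iff.1 hs _ h3
        have h5 : ∀ i, (p : ℤ) ∣ g i := fun i => (ZMod.intCast_zmod_eq_zero_iff_dvd _ _).1 (h4 i)
        choose g' hg' using h5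
        have h6 : ∑ i, g' i • ((a i : B) : F) = 0 := by
          have h7 : (p : F) * ∑ i, g' i • ((a i : B) : F) = 0 := by
            rw [← hg, Finset.mul_sum]
            refine Finset.sum_congr rfl fun i _ => ?_
            rw [hg' i, zsmul_eq_mul, zsmul_eq_mul]
            push_cast
            ring
          exact (mul_eq_zero.1 h7).resolve_left hpF
        rw [hg' i, pow_succ']
        exact mul_dvd_mul_left _ (ih g' h6 i)
    have hZ : LinearIndependent ℤ (fun i : s => ((a i : B) : F)) := by
      rw [Fintype.linearIndependent_iff]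
      intro g hg i
      by_contra hne
      have h1 := key (g i).natAbs g hg i
      have h2 : p ^ (g i).natAbs ∣ (g i).natAbs := by
        have := Int.natAbs_dvd_natAbs.2 h1
        rwa [Int.natAbs_pow, Int.natAbs_natCast] at this
      have h3 := Nat.le_of_dvd (Int.natAbs_pos.2 hne) h2
      exact absurd h3 (not_le.2 (Nat.lt_pow_self hp.one_lt))
    have hQ : LinearIndependent ℚ (fun i : s => ((a i : B) : F)) :=
      (LinearIndependent.iff_fractionRing ℤ ℚ).1 hZ
    have := hQ.fintype_card_le_finrank
    simpa using this
  have hfin : Module.Finite (ZMod p) (IsLocalRing.ResidueField B) :=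
    Module.rank_lt_aleph0_iff.1 (lt_of_le_of_lt hrank (Cardinal.natCast_lt_aleph0))
  exact Module.finite_of_finite (ZMod p)

/-- L1: the residue field of a valuation ring of a number field above `p` is finite.
(Let `n = [K₀ : ℚ]`.  The residue field `k` has characteristic `p`; a family of elements of `k` which is
linearly independent over `ZMod p` lifts to a family in `A₀` which is linearly independent over `ℤ`
(if `∑ c i • a i = 0`, reduce: `p ∣ c i` for all `i`; divide by `p`; so `p ^ m ∣ c i` for all `m`),
hence over `ℚ` (`LinearIndependent.iff_fractionRing`), so it has at most `n` elements; `rank_le`,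
`Module.rank_lt_aleph0_iff`, `Module.finite_of_finite (ZMod p)`.) -/
theorem EQ.finite_residueField (A : ValuationSubring Kbar) {p : ℕ} (hp : p.Prime)
    (hA : A.LiesOverPrime p) (K₀ : IntermediateField ℚ Kbar) [FiniteDimensional ℚ K₀] :
    Finite (IsLocalRing.ResidueField (rA A K₀)) := by
  refine EQ.finite_aux (rA A K₀) hp ?_
  have h1 : A.valuation (p : Kbar) < 1 := hA
  rw [ValuationSubring.mem_nonunits_iff]
  by_contra hcon
  rw [not_lt] at hcon
  have hp0 : (p : K₀) ≠ 0 := by exact_mod_cast hp.ne_zero
  have h2 : ((p : K₀))⁻¹ ∈ rA A K₀ := by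
    rw [← ValuationSubring.valuation_le_one_iff, map_inv₀]
    exact inv_le_one_of_one_le₀ hcon
  have h3 : ((p : Kbar))⁻¹ ∈ A := by
    have h4 : algebraMap K₀ Kbar ((p : K₀))⁻¹ ∈ A := h2
    rwa [map_inv₀, map_natCast] at h4
  rw [← ValuationSubring.valuation_le_one_iff, map_inv₀] at h3
  have hp0' : (p : Kbar) ≠ 0 := by exact_mod_cast hp.ne_zero
  have h5 := (inv_le_one₀ (zero_lt_iff.2 ((Valuation.ne_zero_iff _).2 hp0'))).1 h3
  exact absurd h1 (not_lt.2 h5)

end Fermat.Agent.S33.New

end
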