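/-
S33, NodeNew, N2 (owner helper73): the `K`-level statement.  `K` is an abstract subfield of `ℚ̄`,
`A₀` a discrete valuation ring of `K` of residue characteristic `p`, `τ` an automorphism of `K` of
finite order in the inertia group of `A₀`.  On Kummer units of level `M p` which are deep at both
vertical valuations, `τ` acts through the cyclotomic character.
Consumes `Nodal.LQ.tor_deep` (helper155), `BAD.LevelQ.Mod.lq` and the LQ-GAL API (helper39),
`S33.New.Orbit` (helper45).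
-/
import Fermat.Agent.Nodal.LQ.Tor
import Fermat.Agent.BAD.LevelQ.Mod.Main
import Fermat.Agent.BAD.LevelQ.Mod.GalVal
import Fermat.Agent.S33.New.EQ.Orbit

set_option autoImplicit false

noncomputable section

namespace Fermat.Agent.S33.New

open ModularCurve Fermat.Agent.S24 Fermat.Agent.S18 Fermat.Agent.S18.Descent Fermat.Agent.GAL
  Fermat.Agent.GAL.E Fermat.Agent.BAD.LevelQ Fermat.Agent.BAD.LevelQ.Mod Fermat.Agent.Nodal

variable {K : Type*} [Field K] [Algebra ℚ K] [Algebra K Kbar]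
  {A₀ : ValuationSubring K} [IsDiscreteValuationRing A₀] {ϖ₀ : K}
  {M p : ℕ} [NeZero M] [NeZero p]

/-- the inertia condition gives `CrossPow` on both charts -/
theorem EQ.crossPow (h₀ : IsUnif A₀ ϖ₀) (hc : M.Coprime p) {τ : K ≃+* K}
    (hτ : A₀.comap (τ : K →+* K) = A₀) (hτ1 : ∀ a ∈ A₀, (τ a - a) / ϖ₀ ^ 1 ∈ A₀)
    (hU : IsUnif (VV A₀ hc 0) (algebraMap K (FK K (M * p)) ϖ₀))
    (z : FK K (M * p)) (hz : gal τ (M * p) z = z)
    (hle : ∀ b ∈ chart A₀.toSubring z, b ∈ VV A₀ hc 0) :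
    CrossPow (chart A₀.toSubring z) (VV A₀ hc) (gal τ (M * p)) := by
  refine crossPow_of_trivial _ _ _ (fun b hb => gal_mem_chart hτ hz hb) fun b hb => ?_
  have h1 := gal_sub_mem_VV h₀ hτ 1 hτ1 hc 0 b (hle b hb)
  rw [pow_one] at h1
  exact (Two.lt_one_iff_div_mem hU _).2 h1

theorem eqK (h₀ : IsUnif A₀ ϖ₀) (hp : p.Prime) (hpM : ¬ p ∣ M)
    (hchar : A₀.valuation (p : K) < 1) (hc : M.Coprime p) {γ₀ : K →+* K}
    (hγ : IsFrobInv A₀ p γ₀) (D : BaseData M p) (hD : BeInt D)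
    (hfin : Finite (IsLocalRing.ResidueField A₀))
    (ζ : K) (hζ : IsPrimitiveRoot ζ p)
    (τ : K ≃+* K) (hτ : A₀.comap (τ : K →+* K) = A₀) (hτ1 : ∀ a ∈ A₀, (τ a - a) / ϖ₀ ^ 1 ∈ A₀)
    (n : ℕ) (hn : 0 < n) (hτn : ∀ a, τ^[n] a = a)
    (s : E.GQ) (hs : ∀ a : K, s (algebraMap K Kbar a) = algebraMap K Kbar (τ a))
    (ε : ℕ) (hε : τ ζ = ζ ^ ε)
    (u : FK K (M * p)) (hu0 : u ≠ 0) (hK : IsKum (M * p) p (bcBar (M * p) u))
    (hdeep : ∀ c, ((u - 1) / algebraMap K (FK K (M * p)) ϖ₀) /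
      algebraMap K (FK K (M * p)) (ζ - 1) ^ p ∈ VV A₀ hc c)
    (hroot : ∃ z : LaurentSeries K, z ^ p = Orbit.incl K (M * p) u) :
    ∃ f : FK K (M * p), gal τ (M * p) u = u ^ ε * f ^ p := by
  have : CharZero K := algebraRat.charZero K
  have H := lq h₀ hp hpM hchar hc hγ D hD
  have hx := gal_xx (q := p) τ D
  have hτA : ∀ a : K, τ a ∈ A₀ ↔ a ∈ A₀ := by
    intro a
    conv_rhs => rw [← hτ, ValuationSubring.mem_comap]
    rfl
  refine Nodal.LQ.tor_deep H hfin (Orbit.incl K (M * p)) (Orbit.range_of_isIntegralElem (M * p))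
    p hp ζ hζ (gal τ (M * p)) τ (gal_const τ (M * p)) hτA hx (gal_mem_VV hτ hc) ?_ ?_ ε hε
    (Orbit.orbit τ (M * p) n u) (Orbit.gal_mem_orbit τ (M * p) hn hτn u)
    (Orbit.exists_pow_eq_of_mem_orbit hroot) ?_
    (Orbit.riemK_prod_orbit s hs n _ (H.isMCoord 0).transcendental p hp.pos u hu0 hK) u
    (Orbit.self_mem_orbit τ (M * p) hn u)
  · exact EQ.crossPow h₀ hc hτ hτ1 (H.unif_all 0) _ hx fun b hb => ((H.mem_ch₁_iff b).1 hb).1 0
  · exact EQ.crossPow h₀ hc hτ hτ1 (H.unif_all 0) _ (by rw [map_inv₀, hx])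
      fun b hb => ((H.mem_ch₂_iff b).1 hb).1 0
  · have hζ1 : ζ - 1 ≠ 0 := sub_ne_zero.2 (hζ.ne_one hp.one_lt)
    have hζA : ζ ∈ A₀ := Nodal.LQ.tor_tame_zeta_mem hp.ne_zero hζ.pow_eq_one
    have hz0 : algebraMap K (FK K (M * p)) (ζ - 1) ^ p ≠ 0 :=
      pow_ne_zero _ ((map_ne_zero _).2 hζ1)
    refine Orbit.orbit_induction (P := fun u' => ∀ c, ∃ z : FK K (M * p),
      (VV A₀ hc c).valuation z < 1 ∧ u' - 1 = algebraMap K (FK K (M * p)) (ζ - 1) ^ p * z) ?_ ?_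
    · intro c
      refine ⟨(u - 1) / algebraMap K (FK K (M * p)) (ζ - 1) ^ p, ?_, ?_⟩
      · rw [Two.lt_one_iff_div_mem (H.unif_all c), div_right_comm]
        exact hdeep c
      · rw [mul_div_cancel₀ _ hz0]
    · intro u' ih c
      obtain ⟨z, hz, e⟩ := ih c
      obtain ⟨t, ht, hte⟩ : ∃ t ∈ A₀, τ ζ - 1 = (ζ - 1) * t := by
        refine ⟨∑ i ∈ Finset.range ε, ζ ^ i, A₀.toSubring.sum_mem fun i _ => A₀.pow_mem hζA i, ?_⟩
        rw [hε, mul_comm, geom_sum_mul]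
      refine ⟨algebraMap K (FK K (M * p)) t ^ p * gal τ (M * p) z, ?_, ?_⟩
      · rw [map_mul]
        refine lt_of_le_of_lt (mul_le_of_le_one_left' ?_) ((gal_val_lt_one hτ hc c z).2 hz)
        exact (ValuationSubring.valuation_le_one_iff _ _).2
          ((VV A₀ hc c).pow_mem (H.complete.const_mem c t ht) p)
      · have e2 : gal τ (M * p) u' - 1 = gal τ (M * p) (u' - 1) := by rw [map_sub, map_one]
        rw [e2, e, map_mul, map_pow, gal_const, map_sub, map_one, hte, map_mul]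
        ring

end Fermat.Agent.S33.New

end
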