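/-
S33, NodeNew, N2 (owner helper73), leaf L2.
-/
import Mathlib
import Fermat.Agent.S24.Defs

set_option autoImplicit false

namespace Fermat.Agent.S33.New

open Fermat.Agent.S24

/-- L2: an automorphism of a number field has finite order.
(`K₀ ≃+* K₀` injects into the finite type `K₀ →ₐ[ℚ] K₀` via `RingHom.toRatAlgHom`; pigeonhole /
`isOfFinOrder_of_finite` in the group `RingAut K₀`.) -/
theorem EQ.exists_iterate_eq (K₀ : IntermediateField ℚ Kbar) [FiniteDimensional ℚ K₀]
    (τ : K₀ ≃+* K₀) : ∃ n : ℕ, 0 < n ∧ ∀ a : K₀, τ^[n] a = a := by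
  classical
  -- the algebra endomorphisms `τ ^ n`
  let f : ℕ → (K₀ →ₐ[ℚ] K₀) := fun n => RingHom.toRatAlgHom ((τ : K₀ →+* K₀) ^ n)
  have hf : ∀ n a, f n a = τ^[n] a := by
    intro n a
    change ((τ : K₀ →+* K₀) ^ n) a = _
    induction n generalizing a with
    | zero => rfl
    | succ n ih =>
      rw [pow_succ, Function.iterate_succ_apply]
      change ((τ : K₀ →+* K₀) ^ n) (τ a) = _
      rw [ih]
  have hfin : Finite (K₀ →ₐ[ℚ] K₀) := inferInstance
  obtain ⟨m, n, hmn, hfe⟩ := Finite.exists_ne_map_eq_of_infinite f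
  have hinj : ∀ k : ℕ, Function.Injective (τ^[k]) := fun k => τ.injective.iterate k
  have key : ∀ m n : ℕ, m < n → f m = f n → ∃ n : ℕ, 0 < n ∧ ∀ a : K₀, τ^[n] a = a := by
    intro m n hlt he
    refine ⟨n - m, by omega, fun a => ?_⟩
    apply hinj m
    rw [← Function.iterate_add_apply, ← hf, ← hf m a, he]
    congr 2
    omega
  rcases lt_or_gt_of_ne hmn with h | h
  · exact key m n h hfe
  · exact key n m h hfe.symm

end Fermat.Agent.S33.New
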