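/-
S33, NodeNew, N2 (owner helper73), leaf L4.
-/
import Fermat.Agent.S33.New.EQ.Orbit
import Fermat.Agent.S33.Old.Bridge
import Fermat.Agent.S17.W.Cusp
import Fermat.Agent.KLB.Mod.Series

set_option autoImplicit false

noncomputable section

namespace Fermat.Agent.S33.New

open ModularCurve Fermat.Agent.S24 Fermat.Agent.S18 Fermat.Agent.S18.Descent Fermat.Agent.GAL
  Fermat.Agent.GAL.E Fermat.Agent.S33.Old

/-- L4: the `q`-expansion of a Kummer unit whose leading coefficient is a `p`-th power in `K₀` is a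
`p`-th power in `K₀((q))`.  (`S17.W.ord_cusp`: the order of the series `tb u₀` is the order at the place
`cusp N`, divisible by `p`; `KLB.Mod.order_coeffMap_of_injective`, `coe_tb`;
`KLB.Mod.exists_pow_eq_laurent'`.) -/
theorem EQ.exists_root {N p : ℕ} [NeZero N] (hp : 0 < p) (K₀ : IntermediateField ℚ Kbar)
    (u₀ : FK K₀ N) (hu0 : u₀ ≠ 0) (hK : IsKum N p (tb N K₀ u₀))
    (hlead : ∃ c : K₀, c ^ p = (u₀ : LaurentSeries K₀).leadingCoeff) :
    ∃ z : LaurentSeries K₀, z ^ p = Orbit.incl K₀ N u₀ := by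
  obtain ⟨c, hc⟩ := hlead
  have hu0' : (u₀ : LaurentSeries K₀) ≠ 0 := fun h => hu0 (Subtype.ext h)
  have htb0 : tb N K₀ u₀ ≠ 0 := fun h => hu0 (tb_injective K₀ (h.trans (map_zero _).symm))
  have hord : (p : ℤ) ∣ (u₀ : LaurentSeries K₀).order := by
    have h1 := hK (S17.W.cusp N)
    rw [S17.W.ord_cusp N _ htb0, coe_tb,
      KLB.Mod.order_coeffMap_of_injective _ (algebraMap K₀ Kbar).injective] at h1
    exact h1
  rw [Orbit.incl_apply]
  exact KLB.Mod.exists_pow_eq_laurent' p hp _ hu0' hord c hc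

end Fermat.Agent.S33.New

end
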