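/-
S33, NodeNew, N2 (owner helper73), leaf L5.
-/
import Fermat.Agent.S33.Cech.Mod.Arith
import Fermat.Agent.BAD.LevelQ.Abs.Two

set_option autoImplicit false

noncomputable section

namespace Fermat.Agent.S33.New

open Fermat.Agent.S18 Fermat.Agent.BAD.LevelQ

/-- the hypotheses force characteristic zero -/
theorem EQ.sq_charZero {K : Type*} [Field K] {A₀ : ValuationSubring K} {p : ℕ} (hp : p.Prime)
    (hchar : A₀.valuation (p : K) < 1) {ζ : K} (hζ : IsPrimitiveRoot ζ p) : CharZero K := by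
  obtain ⟨ℓ, hℓ⟩ := CharP.exists K
  rcases Nat.eq_zero_or_pos ℓ with rfl | hpos
  · exact CharP.charP_to_charZero K
  · exfalso
    have hℓp : ℓ.Prime := (CharP.char_is_prime_or_zero K ℓ).resolve_right hpos.ne'
    have : Fact ℓ.Prime := ⟨hℓp⟩
    by_cases hpl : p = ℓ
    · subst hpl
      have h1 : (ζ - 1) ^ p = 0 := by rw [sub_pow_char, hζ.pow_eq_one, one_pow, sub_self]
      exact hζ.ne_one hp.one_lt (sub_eq_zero.1 ((pow_eq_zero_iff hp.ne_zero).1 h1))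
    · have h1 : ((p : ZMod ℓ)) ^ (ℓ - 1) = 1 := ZMod.pow_card_sub_one_eq_one (by
        intro h0
        rw [ZMod.natCast_eq_zero_iff] at h0
        exact hpl ((Nat.prime_dvd_prime_iff_eq hℓp hp).1 h0).symm)
      have h2 : (p : K) ^ (ℓ - 1) = 1 := by
        have h3 := congrArg (ZMod.castHom (dvd_refl ℓ) K) h1
        simpa using h3
      have h3 : A₀.valuation (p : K) ^ (ℓ - 1) = 1 := by rw [← map_pow, h2, map_one]
      have h4 : A₀.valuation (p : K) ^ (ℓ - 1) < 1 :=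
        pow_lt_one₀ zero_le hchar (by have := hℓp.two_le; omega)
      exact absurd h3 h4.ne

/-- L5: `p ^ 2` is divisible by `ϖ₀ (ζ - 1) ^ p`.  (`Cech.exists_unit_zeta`: `p = ε (ζ - 1) ^ (p - 1)`
with a unit `ε`; so `v (ζ - 1) < 1`, `(ζ - 1) / ϖ₀ ∈ A₀` (`Two.lt_one_iff_div_mem`) and
`p ^ 2 = ε ^ 2 (ζ - 1) ^ (p - 3) (ζ - 1) (ζ - 1) ^ p`.) -/
theorem EQ.sq_div_mem {K : Type*} [Field K] {A₀ : ValuationSubring K} {ϖ₀ : K}
    (h₀ : IsUnif A₀ ϖ₀) {p : ℕ} (hp : p.Prime) (hp2 : p ≠ 2) (hchar : A₀.valuation (p : K) < 1)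
    {ζ : K} (hζ : IsPrimitiveRoot ζ p) : (p : K) ^ 2 / (ϖ₀ * (ζ - 1) ^ p) ∈ A₀ := by
  have : CharZero K := EQ.sq_charZero hp hchar hζ
  have hζ1 : ζ - 1 ≠ 0 := sub_ne_zero.mpr (hζ.ne_one hp.one_lt)
  have hϖ : ϖ₀ ≠ 0 := h₀.ne_zero
  obtain ⟨ε, hε, hε', hpε⟩ := Cech.exists_unit_zeta (A₀ := A₀) hp hζ
  obtain ⟨q, rfl⟩ : ∃ q, p = q + 3 := ⟨p - 3, by have := hp.two_le; omega⟩
  have hsub : q + 3 - 1 = q + 2 := rfl
  rw [hsub] at hpε
  have hp0 : ((q + 3 : ℕ) : K) ≠ 0 := Nat.cast_ne_zero.2 (by omega)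
  have hε0 : ε ≠ 0 := by
    rintro rfl
    rw [zero_mul] at hpε
    exact hp0 hpε
  -- `v (ζ - 1) < 1`
  have hlt : A₀.valuation (ζ - 1) < 1 := by
    by_contra hcon
    rw [not_lt] at hcon
    have h1 : 1 ≤ A₀.valuation (ζ - 1) ^ (q + 2) := one_le_pow₀ hcon
    have h2 : A₀.valuation ((ζ - 1) ^ (q + 2)) < 1 := by
      have e1 : (ζ - 1) ^ (q + 2) = ε⁻¹ * ((q + 3 : ℕ) : K) := by
        rw [hpε, inv_mul_cancel_left₀ hε0]
      rw [e1, map_mul]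
      exact lt_of_le_of_lt (mul_le_of_le_one_left' ((A₀.valuation_le_one_iff _).2 hε')) hchar
    rw [map_pow] at h2
    exact absurd h2 (not_lt.2 h1)
  have hπA : ζ - 1 ∈ A₀ := (A₀.valuation_le_one_iff _).1 hlt.le
  have hdiv : (ζ - 1) / ϖ₀ ∈ A₀ := (Two.lt_one_iff_div_mem h₀ _).1 hlt
  have key : ((q + 3 : ℕ) : K) ^ 2 / (ϖ₀ * (ζ - 1) ^ (q + 3)) =
      ε ^ 2 * (ζ - 1) ^ q * ((ζ - 1) / ϖ₀) := by
    rw [hpε]
    field_simp
    ring
  rw [key]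
  exact A₀.mul_mem _ _ (A₀.mul_mem _ _ (pow_mem hε 2) (pow_mem hπA q)) hdiv

end Fermat.Agent.S33.New

end
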