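/-
S33, NodeNew, N2 (owner helper73): the small leaves of the descent `ℚ̄ → K₀` used in `EQ/Main.lean`.
-/
import Fermat.Agent.S33.New.EQ.K
import Fermat.Agent.S33.New.EQ.Fin
import Fermat.Agent.S33.New.EQ.Ord
import Fermat.Agent.S33.New.EQ.Root
import Fermat.Agent.S33.New.EQ.Sq
import Fermat.Agent.S33.Old.BridgeGauss

set_option autoImplicit false

noncomputable section

namespace Fermat.Agent.S33.New

open ModularCurve Fermat.Agent.S24 Fermat.Agent.S18 Fermat.Agent.S18.Descent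
  Fermat.Agent.BAD.LevelQ Fermat.Agent.BAD.LevelQ.Mod Fermat.Agent.S36.Mod

/-- L3 -/
theorem EQ.mem_Og_of_mem_gaussSubring {K : Type*} [Field K] [Algebra ℚ K]
    (A₀ : ValuationSubring K) [IsDiscreteValuationRing A₀] (N : ℕ) (y : FK K N)
    (hy : y ∈ Vert.gaussSubring A₀ (FK K N)) : y ∈ Og A₀ N := by
  obtain ⟨P, Q, -, -, hQ, h⟩ := hy
  exact ((stdEmb A₀ N).mem_val_iff y).2 ⟨P, Q, hQ, h⟩

end Fermat.Agent.S33.New

end
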